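/-
S33lib / NC / Sym  (helper3; mechanical port of the SymData part of S19lib/Geom/Setup over `IAct` / `DSym`)
-/
import Fermat.Agent.S33lib.NC.Disc
import Fermat.Agent.S19lib.Geom.Setup

set_option autoImplicit false
set_option linter.unusedSectionVars false

noncomputable section

namespace Fermat.Agent.S33lib.NC

open AlgebraicCurve Fermat.Agent.LSb Fermat.Agent.S18lib Fermat.Agent.S19lib.C Fermat.Agent.S33lib.N
open Fermat.Agent.S19lib.Geom (ev_fixed dq_fixed regAt_smul ev_smul_smul)

variable {L : Type*} [Field L] {A : ValuationSubring L}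
variable {F : Type*} [Field F] [Algebra L F]
variable {Fk : Type*} [Field Fk] [Algebra (IsLocalRing.ResidueField A) Fk]
variable [HasPrincipalDivisors L F] [HasPrincipalDivisors (IsLocalRing.ResidueField A) Fk]
variable {G : Type*} [Group G]

local notation "k" => IsLocalRing.ResidueField A

section Act

variable (S : IAct A F G)

theorem fixF_zero : S.FixF 0 := fun g => smul_zero _

theorem fixF_one : S.FixF 1 := fun g => smul_one _

theorem FixF.add {f f' : F} (h : S.FixF f) (h' : S.FixF f') : S.FixF (f + f') :=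
  fun g => by rw [smul_add, h g, h' g]

theorem FixF.sub {f f' : F} (h : S.FixF f) (h' : S.FixF f') : S.FixF (f - f') :=
  fun g => by rw [smul_sub, h g, h' g]

theorem FixF.neg {f : F} (h : S.FixF f) : S.FixF (-f) :=
  fun g => by rw [smul_neg, h g]

theorem FixF.mul {f f' : F} (h : S.FixF f) (h' : S.FixF f') : S.FixF (f * f') :=
  fun g => by rw [smul_mul', h g, h' g]

theorem FixF.inv {f : F} (h : S.FixF f) : S.FixF f⁻¹ :=
  fun g => by rw [smul_inv'', h g]

theorem FixF.pow {f : F} (h : S.FixF f) (n : ℕ) : S.FixF (f ^ n) :=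
  fun g => by rw [smul_pow', h g]

theorem fixF_const {a : L} (ha : a ∈ S.R) : S.FixF (algebraMap L F a) :=
  fun g => by rw [SemilinearAut.smul_algebraMap, ha.2 g]

theorem FixF.sum {ι : Type*} (s : Finset ι) (φ : ι → F) (h : ∀ i ∈ s, S.FixF (φ i)) :
    S.FixF (∑ i ∈ s, φ i) := fun g => by
  rw [Finset.smul_sum]
  exact Finset.sum_congr rfl fun i hi => h i hi g

theorem ev_mem_R {P : Place L F} (hP : P.deg = 1) {f : F} (hf : RegAt P f)
    (hFP : S.FixP P) (hFf : S.FixF f) (hA : ev P f ∈ A) : ev P f ∈ S.R :=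
  ⟨hA, fun g => ev_fixed (S.ρ g) hP hf (hFP g) (hFf g)⟩

theorem FixF.dq {P : Place L F} (hP : P.deg = 1) {t f : F} (ht : RegAt P t) (hf : RegAt P f)
    (hFP : S.FixP P) (hFt : S.FixF t) (hFf : S.FixF f) : S.FixF (Fermat.Agent.S19lib.C.dq P t f) :=
  fun g => dq_fixed (S.ρ g) hP ht hf (hFP g) (hFt g) (hFf g)

end Act

section DS

variable {D : DiscDatum A F Fk} (S : DSym D G)

theorem mem_O_iff (g : G) (f : F) : S.ρ g • f ∈ D.G.O ↔ f ∈ D.G.O := by
  refine ⟨fun h => ?_, S.mem_O g f⟩
  have := S.mem_O g⁻¹ _ h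
  rwa [map_inv, inv_smul_smul] at this

theorem discReg_smul (g : G) {Qb : Place k Fk} {f : F} (hf : DiscReg D Qb f) :
    DiscReg D Qb (S.ρ g • f) := by
  refine ⟨S.mem_O g f hf.1, fun P hP => ?_⟩
  have h1 : D.r ((S.ρ g)⁻¹ • P) = some Qb := by
    have := S.r_smul g⁻¹ P
    rw [map_inv] at this
    rw [this, hP]
  have h2 := regAt_smul (S.ρ g) (hf.2 _ h1)
  rwa [smul_inv_smul] at h2

theorem fixP_of_unique_zero {Qb : Place k Fk} {t : F} (hFt : S.FixF t) {P : Place L F}
    (hP : D.r P = some Qb) (hzero : 0 < P.ord t)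
    (huniq : ∀ P' : Place L F, D.r P' = some Qb → 0 < P'.ord t → P' = P) : S.FixP P := by
  intro g
  apply huniq
  · rw [S.r_smul, hP]
  · have := SemilinearAut.ord_smul (S.ρ g) P t
    rw [hFt g] at this
    rw [this]
    exact hzero

end DS

end Fermat.Agent.S33lib.NC

end
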