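/-
S33lib / NC / Taylor  — mechanical port (helper3) of S19lib/Geom/Taylor over `DiscDatum` / `DSym`.

On top of helper7's local API (`S19lib/C/Disc`):

* `DiscReg.exists_zero` : a disc-regular function whose reduction vanishes at `Qb` has a zero in
  the disc over `Qb` (conservation);
* `IsParamAt.exists_ev_eq` : **(L2)** a parameter takes every value of its residue class on the disc;
* `Chart D Qb` : a centred parameter `t` with its centre `P0`; `Chart.pt u` the point of the disc
  with `t = u` (`u ∈ 𝔪_A`), `pt_ev`, `ev_pt`, bijection `disc ≃ 𝔪_A`;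
* `Chart.rem f n` (iterated divided difference), `Chart.coeff f n`, **(L3)** `Chart.taylor_ev` :
  `f(P) = Σ_{n<M} aₙ uⁿ + u^M · (element of A)`, `u = t(P)`;
* **(L4)** `Chart.coeff_mem_R` : the coefficients of fixed data lie in the fixed ring `S.R`;
* `Chart.analyticOn_ev` : `w ↦ f(pt (w i₀))` is `AnalyticOn A S.R ϖ`.
-/
import Fermat.Agent.S33lib.NC.Sym
import Fermat.Agent.S19lib.Geom.Taylor

set_option autoImplicit false
set_option linter.unusedSectionVars false

noncomputable section

namespace Fermat.Agent.S33lib.NC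

open AlgebraicCurve Fermat.Agent.LSb Fermat.Agent.S18lib Fermat.Agent.S19lib.C Fermat.Agent.S33lib.N
open Fermat.Agent.S19lib.Geom (ev_smul_smul)
open Fermat.Agent.S19lib (AnalyticOn)

variable {L : Type*} [Field L] {A : ValuationSubring L}
variable {F : Type*} [Field F] [Algebra L F]
variable {Fk : Type*} [Field Fk] [Algebra (IsLocalRing.ResidueField A) Fk]
variable [HasPrincipalDivisors L F] [HasPrincipalDivisors (IsLocalRing.ResidueField A) Fk]

local notation "k" => IsLocalRing.ResidueField A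

variable {D : DiscDatum A F Fk} {Qb : Place (IsLocalRing.ResidueField A) Fk}

/-- a disc-regular function whose reduction vanishes at `Qb` has a zero in the disc -/
theorem DiscReg.exists_zero {f : F} (hf : DiscReg D Qb f) (hQ : D.Good Qb) (hred : D.G.redF f ≠ 0)
    (hpos : 0 < Qb.ord (D.G.redF f)) : ∃ P : Place L F, D.r P = some Qb ∧ 0 < P.ord f := by
  have h1 : 0 < Finsupp.mapDomain D.r (divOf (K := L) f) (some Qb) := by
    have := D.pushO_divOf hred hQ
    rw [pushO_apply] at this
    rw [this]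
    exact hpos
  obtain ⟨P, hP, hne⟩ := exists_of_mapDomain_apply_pos D.r h1
  refine ⟨P, hP, ?_⟩
  rw [divOf_apply'] at hne
  have := regAt_iff_ord.1 (hf.2 P hP)
  omega

/-- **(L2)**: a parameter takes on the disc every value `a ∈ A` in its residue class -/
theorem IsParamAt.exists_ev_eq {t : F} (ht : IsParamAt D Qb t) (hQ : D.Good Qb) (hdeg : ∀ P : Place L F, P.deg = 1)
    (a : A) (ha : IsLocalRing.residue A a = ev Qb (D.G.redF t)) :
    ∃ P : Place L F, D.r P = some Qb ∧ ev P t = (a : L) := by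
  have hreg : DiscReg D Qb (t - algebraMap L F (a : L)) := ht.1.sub (DiscReg.const a)
  have hred : D.G.redF (t - algebraMap L F (a : L))
      = D.G.redF t - algebraMap k Fk (ev Qb (D.G.redF t)) := by
    rw [D.G.redF_sub ht.1.1 (D.G.algebraMap_mem a), D.G.redF_algebraMap, ha]
  have hne : D.G.redF (t - algebraMap L F (a : L)) ≠ 0 := by
    rw [hred]
    intro h0
    have := ht.2
    rw [h0, Qb.ord_zero] at this
    exact zero_ne_one this
  obtain ⟨P, hP, hpos⟩ := hreg.exists_zero hQ hne (by rw [hred, ht.2]; exact zero_lt_one)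
  refine ⟨P, hP, ev_eq_of_hasValueAt ?_⟩
  rw [hasValueAt_iff]
  exact Or.inr hpos

/-! ### charts -/

/-- a centred parameter on the disc over `Qb` -/
structure Chart (D : DiscDatum A F Fk) (Qb : Place k Fk) where
  /-- the parameter -/
  t : F
  /-- the centre -/
  P0 : Place L F
  r_P0 : D.r P0 = some Qb
  param : IsParamAt D Qb t
  centred : ev P0 t = 0
  deg_one : ∀ P : Place L F, P.deg = 1

namespace Chart

variable (c : Chart D Qb)

theorem ev_redF_t : ev Qb (D.G.redF c.t) = 0 := by
  rw [← c.param.1.residue_ev c.r_P0 (c.deg_one _)]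
  have : (⟨ev c.P0 c.t, c.param.1.ev_mem c.r_P0 (c.deg_one _)⟩ : A) = 0 :=
    Subtype.ext c.centred
  rw [this, map_zero]

/-- the values of the parameter on the disc lie in `𝔪_A` -/
theorem valuation_ev_lt_one {P : Place L F} (hP : D.r P = some Qb) : A.valuation (ev P c.t) < 1 := by
  have h1 := (c.param.1.residue_ev hP (c.deg_one _)).trans c.ev_redF_t
  rw [IsLocalRing.residue_eq_zero_iff] at h1
  exact (A.valuation_lt_one_iff _).1 h1

open Classical in
/-- the point of the disc with parameter value `u` (the centre if there is none) -/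
def pt (u : L) : Place L F :=
  if h : ∃ P : Place L F, D.r P = some Qb ∧ ev P c.t = u then h.choose else c.P0

theorem exists_pt {u : L} (hu : A.valuation u < 1) :
    ∃ P : Place L F, D.r P = some Qb ∧ ev P c.t = u := by
  have huA : u ∈ A := (A.valuation_le_one_iff _).1 hu.le
  have := c.param.exists_ev_eq ⟨c.P0, c.r_P0⟩ c.deg_one ⟨u, huA⟩ (by
    rw [c.ev_redF_t, IsLocalRing.residue_eq_zero_iff]
    exact (A.valuation_lt_one_iff _).2 hu)
  exact this

theorem r_pt (u : L) : D.r (c.pt u) = some Qb := by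
  classical
  rw [pt]
  split_ifs with h
  · exact h.choose_spec.1
  · exact c.r_P0

theorem ev_pt {u : L} (hu : A.valuation u < 1) : ev (c.pt u) c.t = u := by
  classical
  have h := c.exists_pt hu
  rw [pt, dif_pos h]
  exact h.choose_spec.2

theorem pt_ev {P : Place L F} (hP : D.r P = some Qb) : c.pt (ev P c.t) = P :=
  c.param.ev_injOn (c.r_pt _) hP (c.deg_one _) (c.deg_one _)
    (c.ev_pt (c.valuation_ev_lt_one hP))

theorem pt_zero : c.pt 0 = c.P0 := by
  have := c.pt_ev c.r_P0
  rwa [c.centred] at this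

theorem pt_injOn {u u' : L} (hu : A.valuation u < 1) (hu' : A.valuation u' < 1)
    (h : c.pt u = c.pt u') : u = u' := by
  rw [← c.ev_pt hu, ← c.ev_pt hu', h]

/-! ### Taylor expansion -/

/-- the `n`-th iterated divided difference at the centre -/
def rem (f : F) : ℕ → F
  | 0 => f
  | n + 1 => dq c.P0 c.t (rem f n)

/-- the `n`-th Taylor coefficient at the centre -/
def coeff (f : F) (n : ℕ) : L := ev c.P0 (c.rem f n)

@[simp] theorem rem_zero (f : F) : c.rem f 0 = f := rfl

theorem rem_succ (f : F) (n : ℕ) : c.rem f (n + 1) = dq c.P0 c.t (c.rem f n) := rfl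

theorem discReg_rem {f : F} (hf : DiscReg D Qb f) (n : ℕ) : DiscReg D Qb (c.rem f n) := by
  induction n with
  | zero => exact hf
  | succ n ih => exact ih.dq c.param c.deg_one c.r_P0

theorem coeff_mem {f : F} (hf : DiscReg D Qb f) (n : ℕ) : c.coeff f n ∈ A :=
  (c.discReg_rem hf n).ev_mem c.r_P0 (c.deg_one _)

theorem t_ne_zero : c.t ≠ 0 := by
  have := c.param.sub_ev_ne_zero c.r_P0 (c.deg_one _)
  rwa [c.centred, map_zero, sub_zero] at this

/-- one step: `f = f(P0) + t · dq f` -/
theorem eq_add_mul_dq (f : F) : f = algebraMap L F (ev c.P0 f) + c.t * dq c.P0 c.t f := by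
  have h := mul_dq (P := c.P0) (t := c.t) (f := f) (by
    rw [c.centred, map_zero, sub_zero]; exact c.t_ne_zero)
  rw [c.centred, map_zero, sub_zero] at h
  rw [h]; ring

/-- **Taylor with remainder**, as an identity in `F` -/
theorem taylor (f : F) (M : ℕ) :
    f = ∑ n ∈ Finset.range M, algebraMap L F (c.coeff f n) * c.t ^ n + c.t ^ M * c.rem f M := by
  induction M with
  | zero => simp
  | succ M ih =>
    rw [Finset.sum_range_succ, c.rem_succ]
    conv_lhs => rw [ih, c.eq_add_mul_dq (c.rem f M)]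
    rw [coeff]
    ring

/-- **(L3)**: Taylor with remainder, evaluated at a point of the disc -/
theorem taylor_ev {f : F} (hf : DiscReg D Qb f) (M : ℕ) {P : Place L F} (hP : D.r P = some Qb) :
    ev P f = ∑ n ∈ Finset.range M, c.coeff f n * ev P c.t ^ n
      + ev P c.t ^ M * ev P (c.rem f M) := by
  have hd := c.deg_one P
  have htP : RegAt P c.t := c.param.1.2 P hP
  have hrP : RegAt P (c.rem f M) := (c.discReg_rem hf M).2 P hP
  have hterm : ∀ n ∈ Finset.range M, RegAt P (algebraMap L F (c.coeff f n) * c.t ^ n) :=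
    fun n _ => (regAt_const _).mul (htP.pow n)
  conv_lhs => rw [c.taylor f M]
  rw [ev_add hd (regAt_sum _ _ hterm) ((htP.pow M).mul hrP), ev_sum hd _ _ hterm,
    ev_mul hd (htP.pow M) hrP, ev_pow hd htP]
  congr 1
  refine Finset.sum_congr rfl fun n _ => ?_
  rw [ev_mul hd (regAt_const _) (htP.pow n), ev_const, ev_pow hd htP]

theorem ev_rem_mem {f : F} (hf : DiscReg D Qb f) (M : ℕ) {P : Place L F} (hP : D.r P = some Qb) :
    ev P (c.rem f M) ∈ A :=
  (c.discReg_rem hf M).ev_mem hP (c.deg_one _)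

/-! ### rationality -/

variable {G : Type*} [Group G] (S : DSym D G)

theorem fixF_rem {f : F} (hf : DiscReg D Qb f) (hFt : S.FixF c.t) (hFP : S.FixP c.P0)
    (hFf : S.FixF f) (n : ℕ) : S.FixF (c.rem f n) := by
  induction n with
  | zero => exact hFf
  | succ n ih =>
    exact FixF.dq S.toIAct (c.deg_one _) (c.param.1.2 _ c.r_P0)
      ((c.discReg_rem hf n).2 _ c.r_P0) hFP hFt ih

/-- **(L4)**: the Taylor coefficients of fixed data lie in the fixed ring -/
theorem coeff_mem_R {f : F} (hf : DiscReg D Qb f) (hFt : S.FixF c.t) (hFP : S.FixP c.P0)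
    (hFf : S.FixF f) (n : ℕ) : c.coeff f n ∈ S.R :=
  ev_mem_R S.toIAct (c.deg_one _) ((c.discReg_rem hf n).2 _ c.r_P0) hFP (c.fixF_rem S hf hFt hFP hFf n)
    (c.coeff_mem hf n)

/-- a point of the disc whose parameter value is fixed is fixed (for a fixed chart) -/
theorem fixP_pt (hFt : S.FixF c.t) {u : L} (hu : A.valuation u < 1)
    (hfix : ∀ g : G, SemilinearAut.baseAut (S.ρ g) u = u) : S.FixP (c.pt u) := by
  intro g
  have hr : D.r (S.ρ g • c.pt u) = some Qb := by rw [S.r_smul, c.r_pt]
  have hev : ev (S.ρ g • c.pt u) c.t = u := by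
    have h1 := ev_smul_smul (S.ρ g) (c.deg_one (c.pt u)) (c.param.1.2 _ (c.r_pt u))
    rw [hFt g, c.ev_pt hu, hfix g] at h1
    exact h1
  have := c.pt_ev hr
  rw [hev] at this
  exact this.symm

/-- equivariance of the point map under inertia (for a fixed chart) -/
theorem smul_pt (hFt : S.FixF c.t) (g : G) {u : L} (hu : A.valuation u < 1) :
    S.ρ g • c.pt u = c.pt (SemilinearAut.baseAut (S.ρ g) u) := by
  have hr : D.r (S.ρ g • c.pt u) = some Qb := by rw [S.r_smul, c.r_pt]
  have hev : ev (S.ρ g • c.pt u) c.t = SemilinearAut.baseAut (S.ρ g) u := by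
    have h1 := ev_smul_smul (S.ρ g) (c.deg_one (c.pt u)) (c.param.1.2 _ (c.r_pt u))
    rw [hFt g, c.ev_pt hu] at h1
    exact h1
  have := c.pt_ev hr
  rw [hev] at this
  exact this.symm

/-! ### analyticity of the evaluation -/

/-- the Taylor polynomial in the variable `i₀` -/
def taylorPoly {ι : Type*} (i₀ : ι) (f : F) (M : ℕ) : MvPolynomial ι L :=
  ∑ n ∈ Finset.range M, MvPolynomial.C (c.coeff f n) * MvPolynomial.X i₀ ^ n

theorem eval_taylorPoly {ι : Type*} (i₀ : ι) (f : F) (M : ℕ) (w : ι → L) :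
    MvPolynomial.eval w (c.taylorPoly i₀ f M)
      = ∑ n ∈ Finset.range M, c.coeff f n * w i₀ ^ n := by
  rw [taylorPoly, map_sum]
  refine Finset.sum_congr rfl fun n _ => ?_
  rw [map_mul, map_pow, MvPolynomial.eval_C, MvPolynomial.eval_X]

theorem coeff_taylorPoly_mem {ι : Type*} (i₀ : ι) (f : F) (M : ℕ) (R : Subring L)
    (h : ∀ n, c.coeff f n ∈ R) (m : ι →₀ ℕ) : (c.taylorPoly i₀ f M).coeff m ∈ R := by
  classical
  rw [taylorPoly, MvPolynomial.coeff_sum]
  refine Subring.sum_mem _ fun n _ => ?_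
  rw [MvPolynomial.coeff_C_mul, MvPolynomial.coeff_X_pow]
  split_ifs
  · rw [mul_one]; exact h n
  · rw [mul_zero]; exact R.zero_mem

/-- **evaluation is analytic**: `w ↦ f(pt (w i₀))` is approximated modulo `(w i₀)^M` by the
Taylor polynomial -/
theorem analyticOn_ev {ι : Type*} (i₀ : ι) {f : F} (hf : DiscReg D Qb f) (R : Subring L)
    (hR : ∀ n, c.coeff f n ∈ R) (ϖ : L) :
    AnalyticOn A R ϖ (fun w : ι → L => ev (c.pt (w i₀)) f) := by
  intro M
  refine ⟨c.taylorPoly i₀ f M, c.coeff_taylorPoly_mem i₀ f M R hR, fun w hw cc _ hcc => ?_⟩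
  have hu : A.valuation (w i₀) < 1 := hw i₀
  have hP := c.r_pt (w i₀)
  show A.valuation (ev (c.pt (w i₀)) f - MvPolynomial.eval w (c.taylorPoly i₀ f M)) ≤ cc ^ M
  rw [c.eval_taylorPoly, c.taylor_ev hf M hP, c.ev_pt hu, add_sub_cancel_left, map_mul, map_pow]
  have h1 : A.valuation (ev (c.pt (w i₀)) (c.rem f M)) ≤ 1 :=
    (A.valuation_le_one_iff _).2 (c.ev_rem_mem hf M hP)
  calc A.valuation (w i₀) ^ M * A.valuation (ev (c.pt (w i₀)) (c.rem f M))
      ≤ A.valuation (w i₀) ^ M * 1 := by gcongr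
    _ = A.valuation (w i₀) ^ M := mul_one _
    _ ≤ cc ^ M := by gcongr; exact hcc i₀

/-- the same with the rationality built in -/
theorem analyticOn_ev_fixed {ι : Type*} (i₀ : ι) {f : F} (hf : DiscReg D Qb f)
    (hFt : S.FixF c.t) (hFP : S.FixP c.P0) (hFf : S.FixF f) (ϖ : L) :
    AnalyticOn A S.R ϖ (fun w : ι → L => ev (c.pt (w i₀)) f) :=
  c.analyticOn_ev i₀ hf S.R (c.coeff_mem_R S hf hFt hFP hFf) ϖ

end Chart

end Fermat.Agent.S33lib.NC

end
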